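import Mathlib
import Fermat.Prelude.Def_ExtCitation_KummerBridge
import Fermat.Prelude.Def_EllipticCurve_FrobeniusTrace
import Fermat.Prelude.Def_GaloisRep_ComplexConjugation
import Fermat.Prelude.Def_GaloisRep_Residual
import Fermat.Agent.S05.H63.Inertia

/-!
# Program A (S29 / S42), leaf (CYC) (helper81): the cyclotomic character at Frobenius elements,
on inertia, and at complex conjugation

Everything is in the Prelude vocabulary: `ValuationSubring.LiesOverPrime`,
`ValuationSubring.IsFrobeniusAt`, `ValuationSubring.inertiaSubgroupIn`,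
`ExtCitation.cycloChar`, `complexConjugation`.

* `modEq_of_pow_sub_pow_mem_nonunits` (CYC0): distinct `n`-th roots of unity stay distinct modulo
  a valuation subring of residue characteristic prime to `n`.
* `modularCyclotomicCharacter_of_isFrobeniusAt`, `modularCyclotomicCharacter_of_mem_inertia`
  (CYC6, mod `n`), `cyclotomicCharacter_of_isFrobeniusAt`, `cyclotomicCharacter_of_mem_inertia`
  (CYC6, `p`-adic).
* `cycloChar_of_isFrobeniusAt` (CYC1), `cycloChar_of_mem_inertia` (CYC2),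
  `cycloChar_finiteLevel` (CYC3), `cycloChar_complexConjugation` (CYC4).
* `epsHom` and its four properties (CYC5): the character with values in any ring receiving
  `ZMod p`.
-/

set_option autoImplicit false
set_option linter.style.haveILetI false

namespace Fermat.Agent.S29.H81

open ValuationSubring

section Core

variable {Ω : Type*} [Field Ω]

/-- Roots of unity lie in every valuation subring. -/
theorem mem_of_pow_eq_one (A : ValuationSubring Ω) {z : Ω} {n : ℕ} (hn : 0 < n)
    (hz : z ^ n = 1) : z ∈ A := by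
  rcases A.mem_or_inv_mem z with h | h
  · exact h
  · have hz0 : z ≠ 0 := by
      rintro rfl
      rw [zero_pow hn.ne'] at hz
      exact zero_ne_one hz
    have h1 : z = (z⁻¹) ^ (n - 1) := by
      have h2 : z * z ^ (n - 1) = 1 := by
        rw [← pow_succ', Nat.sub_add_cancel hn]
        exact hz
      rw [inv_pow]
      exact eq_inv_of_mul_eq_one_left h2
    rw [h1]
    exact pow_mem h _

/-- If `ξ ≡ 1` modulo the maximal ideal, then `ξ ^ i ≡ 1`. -/
theorem pow_sub_one_mem_nonunits (A : ValuationSubring Ω) {ξ : Ω} (hξA : ξ ∈ A)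
    (hξ : ξ - 1 ∈ A.nonunits) (i : ℕ) : ξ ^ i - 1 ∈ A.nonunits := by
  rw [← mul_geom_sum, ValuationSubring.mem_nonunits_iff, map_mul]
  have h1 : A.valuation (∑ j ∈ Finset.range i, ξ ^ j) ≤ 1 :=
    (A.valuation_le_one_iff _).mpr (Subring.sum_mem _ fun j _ => pow_mem hξA j)
  have h2 : A.valuation (ξ - 1) < 1 := hξ
  calc A.valuation (ξ - 1) * A.valuation (∑ j ∈ Finset.range i, ξ ^ j)
      ≤ A.valuation (ξ - 1) * 1 := mul_le_mul' le_rfl h1
    _ < 1 := by rwa [mul_one]

/-- A root of unity of order prime to the residue characteristic which is `≡ 1` is `1`. -/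
theorem eq_one_of_sub_one_mem_nonunits (A : ValuationSubring Ω) {l n : ℕ}
    (hA : (l : Ω) ∈ A.nonunits) (hln : Nat.Coprime l n) {ξ : Ω} (hξn : ξ ^ n = 1)
    (hξ : ξ - 1 ∈ A.nonunits) : ξ = 1 := by
  by_contra hne
  rcases Nat.eq_zero_or_pos n with rfl | hn
  · -- `l = 1`, impossible
    rw [Nat.coprime_zero_right] at hln
    subst hln
    rw [Nat.cast_one, ValuationSubring.mem_nonunits_iff, map_one] at hA
    exact lt_irrefl _ hA
  have hξA : ξ ∈ A := mem_of_pow_eq_one A hn hξn
  have hsum : ∑ i ∈ Finset.range n, ξ ^ i = 0 := by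
    have h1 : (ξ - 1) * ∑ i ∈ Finset.range n, ξ ^ i = 0 := by
      rw [mul_geom_sum, hξn, sub_self]
    exact (mul_eq_zero.mp h1).resolve_left (sub_ne_zero.mpr hne)
  have hn' : (n : Ω) = - ∑ i ∈ Finset.range n, (ξ ^ i - 1) := by
    rw [Finset.sum_sub_distrib, hsum]
    simp
  have hnmem : (n : Ω) ∈ A.nonunits := by
    rw [hn']
    exact neg_mem (sum_mem fun i _ => pow_sub_one_mem_nonunits A hξA hξ i)
  -- Bezout
  have hcop : IsCoprime (l : ℤ) (n : ℤ) := Nat.isCoprime_iff_coprime.mpr hln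
  obtain ⟨a, b, hab⟩ := hcop
  have h1 : ((a : Ω) * (l : Ω) + (b : Ω) * (n : Ω)) = 1 := by
    have := congrArg (Int.cast : ℤ → Ω) hab
    push_cast at this
    exact this
  have hmem : ∀ (c : ℤ) {x : Ω}, x ∈ A.nonunits → (c : Ω) * x ∈ A.nonunits := by
    intro c x hx
    rw [ValuationSubring.mem_nonunits_iff, map_mul]
    have hc : A.valuation (c : Ω) ≤ 1 := (A.valuation_le_one_iff _).mpr (intCast_mem A c)
    have hx' : A.valuation x < 1 := hx
    calc A.valuation (c : Ω) * A.valuation x ≤ 1 * A.valuation x := mul_le_mul' hc le_rfl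
      _ < 1 := by rwa [one_mul]
  have h2 : (1 : Ω) ∈ A.nonunits := by
    rw [← h1]
    exact add_mem (hmem a hA) (hmem b hnmem)
  rw [ValuationSubring.mem_nonunits_iff, map_one] at h2
  exact lt_irrefl _ h2

/-- **(CYC0)** Distinct `n`-th roots of unity stay distinct modulo the maximal ideal of a
valuation subring of residue characteristic prime to `n`. -/
theorem modEq_of_pow_sub_pow_mem_nonunits (A : ValuationSubring Ω) {l n : ℕ}
    (hA : (l : Ω) ∈ A.nonunits) (hln : Nat.Coprime l n) {z : Ω} (hz : IsPrimitiveRoot z n)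
    {a b : ℕ} (hab : z ^ a - z ^ b ∈ A.nonunits) : a ≡ b [MOD n] := by
  rcases Nat.eq_zero_or_pos n with rfl | hn
  · rw [Nat.coprime_zero_right] at hln
    subst hln
    rw [Nat.cast_one, ValuationSubring.mem_nonunits_iff, map_one] at hA
    exact absurd hA (lt_irrefl _)
  have hzn : z ^ n = 1 := hz.pow_eq_one
  have hzA : z ∈ A := mem_of_pow_eq_one A hn hzn
  set ξ : Ω := z ^ (a + (n - 1) * b) with hξdef
  have hξn : ξ ^ n = 1 := by
    rw [hξdef, ← pow_mul, mul_comm, pow_mul, hzn, one_pow]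
  have hξ1 : ξ - 1 = z ^ ((n - 1) * b) * (z ^ a - z ^ b) := by
    have h1 : z ^ ((n - 1) * b) * z ^ b = 1 := by
      rw [← pow_add]
      have : (n - 1) * b + b = n * b := by
        obtain ⟨m, rfl⟩ : ∃ m, n = m + 1 := ⟨n - 1, by omega⟩
        simp only [Nat.add_sub_cancel]
        ring
      rw [this, pow_mul, hzn, one_pow]
    rw [hξdef, mul_sub, h1, pow_add]
    ring
  have hξmem : ξ - 1 ∈ A.nonunits := by
    rw [hξ1, ValuationSubring.mem_nonunits_iff, map_mul]
    have h1 : A.valuation (z ^ ((n - 1) * b)) ≤ 1 :=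
      (A.valuation_le_one_iff _).mpr (pow_mem hzA _)
    have h2 : A.valuation (z ^ a - z ^ b) < 1 := hab
    calc A.valuation (z ^ ((n - 1) * b)) * A.valuation (z ^ a - z ^ b)
        ≤ 1 * A.valuation (z ^ a - z ^ b) := mul_le_mul' h1 le_rfl
      _ < 1 := by rwa [one_mul]
  have hξ : ξ = 1 := eq_one_of_sub_one_mem_nonunits A hA hln hξn hξmem
  have hdvd : n ∣ a + (n - 1) * b := (hz.pow_eq_one_iff_dvd _).mp hξ
  rw [Nat.modEq_iff_dvd]
  have h1 : ((n : ℕ) : ℤ) ∣ ((a + (n - 1) * b : ℕ) : ℤ) := Int.natCast_dvd_natCast.mpr hdvd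
  have h2 : ((a + (n - 1) * b : ℕ) : ℤ) = (a : ℤ) + ((n : ℤ) - 1) * b := by
    push_cast [Nat.cast_sub hn]
    ring
  rw [h2] at h1
  have h3 : (b : ℤ) - a = (n : ℤ) * b - ((a : ℤ) + ((n : ℤ) - 1) * b) := by ring
  rw [h3]
  exact dvd_sub (dvd_mul_right _ _) h1

end Core

section Frob

variable {K Ω : Type*} [Field K] [Field Ω] [Algebra K Ω]

/-- A Frobenius element at `A` raises elements of `A` to the `l`-th power modulo the maximal
ideal. -/
theorem apply_sub_pow_mem_nonunits_of_isFrobeniusAt {A : ValuationSubring Ω} {σ : Ω ≃ₐ[K] Ω}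
    {l : ℕ} (hσ : A.IsFrobeniusAt σ l) {a : Ω} (ha : a ∈ A) : σ a - a ^ l ∈ A.nonunits := by
  obtain ⟨hdec, h⟩ := hσ
  have h1 := h (IsLocalRing.residue A ⟨a, ha⟩)
  rw [← IsLocalRing.ResidueField.residue_smul, ← map_pow, ← sub_eq_zero, ← map_sub,
    IsLocalRing.residue_eq_zero_iff, ← ValuationSubring.coe_mem_nonunits_iff] at h1
  exact h1

/-- The value of the mod `n` cyclotomic character is read off on one primitive root. -/
theorem modularCyclotomicCharacter_apply_primitiveRoot {n : ℕ} [NeZero n]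
    (hn : Nat.card (rootsOfUnity n Ω) = n) (g : Ω ≃+* Ω) {z : Ω} (hz : IsPrimitiveRoot z n) :
    g z = z ^ ((modularCyclotomicCharacter Ω hn g : (ZMod n)ˣ) : ZMod n).val := by
  have hunit := hz.isUnit (NeZero.ne n)
  have ht : hunit.unit ∈ rootsOfUnity n Ω := by
    rw [mem_rootsOfUnity]
    ext
    simp [hz.pow_eq_one]
  have := modularCyclotomicCharacter.spec Ω hn g ht
  simpa using this

/-- If `g z = z ^ k` for one primitive `n`-th root of unity `z`, the mod `n` cyclotomic
character of `g` is `k`. -/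
theorem modularCyclotomicCharacter_eq_of_apply {n : ℕ} [NeZero n]
    (hn : Nat.card (rootsOfUnity n Ω) = n) (g : Ω ≃+* Ω) {z : Ω} (hz : IsPrimitiveRoot z n)
    {k : ℕ} (h : g z = z ^ k) :
    ((modularCyclotomicCharacter Ω hn g : (ZMod n)ˣ) : ZMod n) = (k : ZMod n) := by
  have hspec := modularCyclotomicCharacter_apply_primitiveRoot hn g hz
  set e := ((modularCyclotomicCharacter Ω hn g : (ZMod n)ˣ) : ZMod n).val with he
  have hz0 : z ≠ 0 := hz.ne_zero (NeZero.ne n)
  have h1 : z ^ ((k : ℤ) - (e : ℤ)) = 1 := by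
    rw [zpow_sub₀ hz0, zpow_natCast, zpow_natCast, ← h, hspec]
    exact div_self (pow_ne_zero _ hz0)
  have h2 : (n : ℤ) ∣ (k : ℤ) - e := (hz.zpow_eq_one_iff_dvd _).mp h1
  have h3 : e ≡ k [MOD n] := (Nat.modEq_iff_dvd).mpr h2
  have h4 : ((e : ℕ) : ZMod n) = (k : ZMod n) := (ZMod.natCast_eq_natCast_iff _ _ _).mpr h3
  rw [← h4, he, ZMod.natCast_zmod_val]

/-- **(CYC6, mod `n`, Frobenius)** The mod `n` cyclotomic character of a Frobenius element at
a valuation subring over `l`, `l` prime to `n`, is `l`. -/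
theorem modularCyclotomicCharacter_of_isFrobeniusAt {n : ℕ} [NeZero n]
    (hn : Nat.card (rootsOfUnity n Ω) = n) (A : ValuationSubring Ω) {l : ℕ}
    (hA : A.LiesOverPrime l) (hln : Nat.Coprime l n) {σ : Ω ≃ₐ[K] Ω}
    (hσ : A.IsFrobeniusAt σ l) :
    ((modularCyclotomicCharacter Ω hn (σ : Ω ≃+* Ω) : (ZMod n)ˣ) : ZMod n) = (l : ZMod n) := by
  obtain ⟨z, hz⟩ := card_rootsOfUnity_eq_iff_exists_isPrimitiveRoot.mp hn
  have hn0 : 0 < n := Nat.pos_of_ne_zero (NeZero.ne n)
  have hzA : z ∈ A := mem_of_pow_eq_one A hn0 hz.pow_eq_one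
  have hspec := modularCyclotomicCharacter_apply_primitiveRoot hn (σ : Ω ≃+* Ω) hz
  set e := ((modularCyclotomicCharacter Ω hn (σ : Ω ≃+* Ω) : (ZMod n)ˣ) : ZMod n).val with he
  have h1 : σ z - z ^ l ∈ A.nonunits := apply_sub_pow_mem_nonunits_of_isFrobeniusAt hσ hzA
  have hspec' : σ z = z ^ e := hspec
  rw [hspec'] at h1
  have h2 : e ≡ l [MOD n] := modEq_of_pow_sub_pow_mem_nonunits A hA hln hz h1
  have h3 : ((e : ℕ) : ZMod n) = (l : ZMod n) := (ZMod.natCast_eq_natCast_iff _ _ _).mpr h2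
  rw [← h3, he, ZMod.natCast_zmod_val]

/-- **(CYC6, mod `n`, inertia)** The mod `n` cyclotomic character is trivial on the inertia
subgroup of a valuation subring over `l`, `l` prime to `n`. -/
theorem modularCyclotomicCharacter_of_mem_inertia {n : ℕ} [NeZero n]
    (hn : Nat.card (rootsOfUnity n Ω) = n) (A : ValuationSubring Ω) {l : ℕ}
    (hA : A.LiesOverPrime l) (hln : Nat.Coprime l n) {σ : Ω ≃ₐ[K] Ω}
    (hσ : σ ∈ A.inertiaSubgroupIn K) :
    modularCyclotomicCharacter Ω hn (σ : Ω ≃+* Ω) = 1 := by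
  obtain ⟨z, hz⟩ := card_rootsOfUnity_eq_iff_exists_isPrimitiveRoot.mp hn
  have hn0 : 0 < n := Nat.pos_of_ne_zero (NeZero.ne n)
  have hzA : z ∈ A := mem_of_pow_eq_one A hn0 hz.pow_eq_one
  have hspec := modularCyclotomicCharacter_apply_primitiveRoot hn (σ : Ω ≃+* Ω) hz
  set e := ((modularCyclotomicCharacter Ω hn (σ : Ω ≃+* Ω) : (ZMod n)ˣ) : ZMod n).val with he
  have h1 : σ z - z ∈ A.nonunits :=
    Fermat.Agent.S05.H63.apply_sub_mem_nonunits_of_mem_inertiaSubgroupIn hσ hzA
  have hspec' : σ z = z ^ e := hspec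
  rw [hspec'] at h1
  have h1' : z ^ e - z ^ 1 ∈ A.nonunits := by rwa [pow_one]
  have h2 : e ≡ 1 [MOD n] := modEq_of_pow_sub_pow_mem_nonunits A hA hln hz h1'
  have h3 : ((e : ℕ) : ZMod n) = ((1 : ℕ) : ZMod n) :=
    (ZMod.natCast_eq_natCast_iff _ _ _).mpr h2
  rw [he, ZMod.natCast_zmod_val, Nat.cast_one] at h3
  exact Units.ext h3

/-- **(CYC6, `p`-adic, Frobenius)** The `p`-adic cyclotomic character of a Frobenius element at
a valuation subring over `l ≠ p` is `l`. -/
theorem cyclotomicCharacter_of_isFrobeniusAt (p : ℕ) [Fact p.Prime]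
    [∀ i, HasEnoughRootsOfUnity Ω (p ^ i)] (A : ValuationSubring Ω) {l : ℕ}
    (hA : A.LiesOverPrime l) (hlp : Nat.Coprime l p) {σ : Ω ≃ₐ[K] Ω}
    (hσ : A.IsFrobeniusAt σ l) :
    ((cyclotomicCharacter Ω p (σ : Ω ≃+* Ω) : ℤ_[p]ˣ) : ℤ_[p]) = (l : ℤ_[p]) := by
  refine PadicInt.ext_of_toZModPow.mp fun n => ?_
  rw [cyclotomicCharacter.toZModPow, map_natCast]
  exact modularCyclotomicCharacter_of_isFrobeniusAt _ A hA (Nat.Coprime.pow_right n hlp) hσ

/-- **(CYC6, `p`-adic, inertia)** The `p`-adic cyclotomic character is trivial on the inertia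
subgroup of a valuation subring over `l ≠ p`. -/
theorem cyclotomicCharacter_of_mem_inertia (p : ℕ) [Fact p.Prime]
    [∀ i, HasEnoughRootsOfUnity Ω (p ^ i)] (A : ValuationSubring Ω) {l : ℕ}
    (hA : A.LiesOverPrime l) (hlp : Nat.Coprime l p) {σ : Ω ≃ₐ[K] Ω}
    (hσ : σ ∈ A.inertiaSubgroupIn K) :
    cyclotomicCharacter Ω p (σ : Ω ≃+* Ω) = 1 := by
  refine Units.ext (PadicInt.ext_of_toZModPow.mp fun n => ?_)
  rw [cyclotomicCharacter.toZModPow,
    modularCyclotomicCharacter_of_mem_inertia _ A hA (Nat.Coprime.pow_right n hlp) hσ]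
  simp

end Frob

section Qbar

local notation "Qb" => AlgebraicClosure ℚ
local notation "Γ" => (AlgebraicClosure ℚ ≃ₐ[ℚ] AlgebraicClosure ℚ)

variable (p : ℕ) [Fact p.Prime]

/-- `ExtCitation.cycloChar` is Mathlib's mod `p` cyclotomic character of `ℚbar`. -/
theorem cycloChar_eq (σ : Γ) :
    haveI : NeZero p := ⟨(Fact.out : p.Prime).ne_zero⟩
    ExtCitation.cycloChar p σ =
      modularCyclotomicCharacter Qb (ExtCitation.card_rootsOfUnity_eq_self p) (σ : Qb ≃+* Qb) :=
  rfl

theorem exists_isPrimitiveRoot_qbar : ∃ z : Qb, IsPrimitiveRoot z p := by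
  haveI : NeZero p := ⟨(Fact.out : p.Prime).ne_zero⟩
  exact card_rootsOfUnity_eq_iff_exists_isPrimitiveRoot.mp (ExtCitation.card_rootsOfUnity_eq_self p)

variable {p}

/-- If `σ z = z ^ k` for one primitive `p`-th root of unity, then `cycloChar p σ = k`. -/
theorem cycloChar_eq_of_apply {σ : Γ} {z : Qb} (hz : IsPrimitiveRoot z p) {k : ℕ}
    (h : σ z = z ^ k) : ((ExtCitation.cycloChar p σ : (ZMod p)ˣ) : ZMod p) = (k : ZMod p) := by
  haveI : NeZero p := ⟨(Fact.out : p.Prime).ne_zero⟩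
  exact modularCyclotomicCharacter_eq_of_apply (ExtCitation.card_rootsOfUnity_eq_self p)
    (σ : Qb ≃+* Qb) hz h

/-- `σ z = z ^ (cycloChar p σ).val` for every `p`-th root of unity `z`. -/
theorem apply_eq_pow_cycloChar (σ : Γ) {z : Qb} (hz : z ^ p = 1) :
    σ z = z ^ ((ExtCitation.cycloChar p σ : (ZMod p)ˣ) : ZMod p).val := by
  haveI : NeZero p := ⟨(Fact.out : p.Prime).ne_zero⟩
  have hz0 : z ≠ 0 := by
    rintro rfl
    rw [zero_pow (NeZero.ne p)] at hz
    exact zero_ne_one hz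
  have ht : Units.mk0 z hz0 ∈ rootsOfUnity p Qb := by
    rw [mem_rootsOfUnity]
    ext
    simpa using hz
  exact modularCyclotomicCharacter.spec Qb (ExtCitation.card_rootsOfUnity_eq_self p)
    (σ : Qb ≃+* Qb) ht

/-- **(CYC1)** The mod `p` cyclotomic character of a Frobenius element at `l ≠ p` is `l`. -/
theorem cycloChar_of_isFrobeniusAt {l : ℕ} (hl : l.Prime) (hlp : l ≠ p)
    (A : ValuationSubring Qb) (hA : A.LiesOverPrime l) {σ : Γ} (hσ : A.IsFrobeniusAt σ l) :
    ((ExtCitation.cycloChar p σ : (ZMod p)ˣ) : ZMod p) = (l : ZMod p) := by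
  haveI : NeZero p := ⟨(Fact.out : p.Prime).ne_zero⟩
  exact modularCyclotomicCharacter_of_isFrobeniusAt (ExtCitation.card_rootsOfUnity_eq_self p) A hA
    ((Nat.coprime_primes hl Fact.out).mpr hlp) hσ

/-- **(CYC2)** The mod `p` cyclotomic character is trivial on inertia at `l ≠ p`. -/
theorem cycloChar_of_mem_inertia {l : ℕ} (hl : l.Prime) (hlp : l ≠ p)
    (A : ValuationSubring Qb) (hA : A.LiesOverPrime l) {σ : Γ}
    (hσ : σ ∈ A.inertiaSubgroupIn ℚ) : ExtCitation.cycloChar p σ = 1 := by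
  haveI : NeZero p := ⟨(Fact.out : p.Prime).ne_zero⟩
  exact modularCyclotomicCharacter_of_mem_inertia (ExtCitation.card_rootsOfUnity_eq_self p) A hA
    ((Nat.coprime_primes hl Fact.out).mpr hlp) hσ

/-- An automorphism fixing one primitive `p`-th root of unity has trivial cyclotomic
character. -/
theorem cycloChar_eq_one_of_apply {σ : Γ} {z : Qb} (hz : IsPrimitiveRoot z p) (h : σ z = z) :
    ExtCitation.cycloChar p σ = 1 := by
  have h1 := cycloChar_eq_of_apply (k := 1) hz (by rw [pow_one]; exact h)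
  rw [Nat.cast_one] at h1
  exact Units.ext h1

variable (p)

/-- **(CYC3)** The mod `p` cyclotomic character factors through the finite level `ℚ(ζ_p)`. -/
theorem cycloChar_finiteLevel :
    ∃ L : IntermediateField ℚ Qb, FiniteDimensional ℚ L ∧
      ∀ σ : Γ, (∀ x ∈ L, σ x = x) → ExtCitation.cycloChar p σ = 1 := by
  obtain ⟨z, hz⟩ := exists_isPrimitiveRoot_qbar p
  have hp : p.Prime := Fact.out
  have hint : IsIntegral ℚ z :=
    ⟨Polynomial.X ^ p - 1, Polynomial.monic_X_pow_sub_C 1 hp.ne_zero, by simp [hz.pow_eq_one]⟩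
  refine ⟨IntermediateField.adjoin ℚ {z},
    IntermediateField.adjoin.finiteDimensional hint, fun σ hσ => ?_⟩
  exact cycloChar_eq_one_of_apply hz
    (hσ z (IntermediateField.subset_adjoin ℚ {z} (Set.mem_singleton z)))

/-- The same statement in the Prelude form `GaloisFactorsThroughFiniteLevel`. -/
theorem cycloChar_factorsThroughFiniteLevel :
    GaloisFactorsThroughFiniteLevel (ExtCitation.cycloChar p) := cycloChar_finiteLevel p

/-- **(CYC4)** The mod `p` cyclotomic character of complex conjugation is `-1`. -/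
theorem cycloChar_complexConjugation :
    ((ExtCitation.cycloChar p complexConjugation : (ZMod p)ˣ) : ZMod p) = -1 := by
  obtain ⟨z, hz⟩ := exists_isPrimitiveRoot_qbar p
  have hp : p.Prime := Fact.out
  have hzp : z ^ p = 1 := hz.pow_eq_one
  -- `c z = z⁻¹ = z ^ (p - 1)`
  have h1 : complexConjugation z = z ^ (p - 1) := by
    apply complexEmbedding.toRingHom.injective
    show complexEmbedding (complexConjugation z) = complexEmbedding (z ^ (p - 1))
    rw [complexEmbedding_complexConjugation, map_pow]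
    set w : ℂ := complexEmbedding z with hw
    have hwp : w ^ p = 1 := by rw [hw, ← map_pow, hzp, map_one]
    have hnorm : ‖w‖ = 1 := Complex.norm_eq_one_of_pow_eq_one hwp hp.ne_zero
    have h2 : w * (starRingEnd ℂ) w = 1 := by
      rw [Complex.mul_conj, Complex.normSq_eq_norm_sq, hnorm]
      simp
    have h3 : w * w ^ (p - 1) = 1 := by
      rw [← pow_succ', Nat.sub_add_cancel hp.pos]
      exact hwp
    have hw0 : w ≠ 0 := by
      rintro h0
      rw [h0, zero_mul] at h2
      exact zero_ne_one h2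
    exact mul_left_cancel₀ hw0 (h2.trans h3.symm)
  have h4 := cycloChar_eq_of_apply hz h1
  rw [h4, Nat.cast_sub hp.pos, Nat.cast_one, ZMod.natCast_self, zero_sub]

end Qbar

section FieldForm

local notation "Qb" => AlgebraicClosure ℚ
local notation "Γ" => (AlgebraicClosure ℚ ≃ₐ[ℚ] AlgebraicClosure ℚ)

variable (p : ℕ) [Fact p.Prime] {k : Type*} [CommRing k] (f : ZMod p →+* k)

/-- **(CYC5)** The mod `p` cyclotomic character with values in a ring `k` receiving `ZMod p`
(for instance a field of characteristic `p`, with `f = ZMod.castHom (dvd_refl p) k` or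
`f = algebraMap (ZMod p) k`). -/
noncomputable def epsHom : Γ →* kˣ :=
  (Units.map (f : ZMod p →* k)).comp (ExtCitation.cycloChar p)

variable {p}

theorem epsHom_apply (σ : Γ) :
    ((epsHom p f σ : kˣ) : k) = f ((ExtCitation.cycloChar p σ : (ZMod p)ˣ) : ZMod p) := rfl

theorem epsHom_of_isFrobeniusAt {l : ℕ} (hl : l.Prime) (hlp : l ≠ p)
    (A : ValuationSubring Qb) (hA : A.LiesOverPrime l) {σ : Γ} (hσ : A.IsFrobeniusAt σ l) :
    ((epsHom p f σ : kˣ) : k) = (l : k) := by
  rw [epsHom_apply, cycloChar_of_isFrobeniusAt hl hlp A hA hσ, map_natCast]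

theorem epsHom_of_mem_inertia {l : ℕ} (hl : l.Prime) (hlp : l ≠ p)
    (A : ValuationSubring Qb) (hA : A.LiesOverPrime l) {σ : Γ}
    (hσ : σ ∈ A.inertiaSubgroupIn ℚ) : epsHom p f σ = 1 := by
  rw [epsHom, MonoidHom.comp_apply, cycloChar_of_mem_inertia hl hlp A hA hσ, map_one]

variable (p)

theorem epsHom_finiteLevel :
    ∃ L : IntermediateField ℚ Qb, FiniteDimensional ℚ L ∧
      ∀ σ : Γ, (∀ x ∈ L, σ x = x) → epsHom p f σ = 1 := by
  obtain ⟨L, hL, h⟩ := cycloChar_finiteLevel p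
  exact ⟨L, hL, fun σ hσ => by rw [epsHom, MonoidHom.comp_apply, h σ hσ, map_one]⟩

theorem epsHom_complexConjugation :
    ((epsHom p f complexConjugation : kˣ) : k) = -1 := by
  rw [epsHom_apply, cycloChar_complexConjugation, map_neg, map_one]

end FieldForm

end Fermat.Agent.S29.H81
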