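import Fermat.Agent.S29.H81.CycloFrob

/-!
# Program A family (S29 / S30 / S31), leaf (CYC), elementary forms (helper81)

Frobenius elements and inertia on roots of unity, without any cyclotomic character:

* `apply_eq_pow_of_isFrobeniusAt`: a Frobenius element at a valuation subring over `l` sends every
  `n`-th root of unity `ζ`, `n` prime to `l`, to `ζ ^ l`;
* `apply_eq_self_of_mem_inertia`: the inertia subgroup of a valuation subring over `l` fixes every
  `n`-th root of unity, `n` prime to `l`;
* `complexConjugation_apply_root`: complex conjugation inverts every root of unity of `ℚbar`;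
* the mod `n` / `p`-adic cyclotomic characters of `complexConjugation` are `-1`.
-/

set_option autoImplicit false
set_option linter.style.haveILetI false

namespace Fermat.Agent.S29.H81

open ValuationSubring

section Roots

variable {K Ω : Type*} [Field K] [Field Ω] [Algebra K Ω]

/-- Two `n`-th roots of unity congruent modulo the maximal ideal of a valuation subring of
residue characteristic prime to `n` are equal. -/
theorem eq_of_sub_mem_nonunits (A : ValuationSubring Ω) {l n : ℕ} (hA : (l : Ω) ∈ A.nonunits)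
    (hln : Nat.Coprime l n) {x y : Ω} (hx : x ^ n = 1) (hy : y ^ n = 1)
    (hxy : x - y ∈ A.nonunits) : x = y := by
  rcases Nat.eq_zero_or_pos n with rfl | hn
  · rw [Nat.coprime_zero_right] at hln
    subst hln
    rw [Nat.cast_one, ValuationSubring.mem_nonunits_iff, map_one] at hA
    exact absurd hA (lt_irrefl _)
  have hyA : y ∈ A := mem_of_pow_eq_one A hn hy
  have hy1 : y ^ (n - 1) * y = 1 := by
    rw [← pow_succ, Nat.sub_add_cancel hn]
    exact hy
  set ξ : Ω := x * y ^ (n - 1) with hξ
  have hξn : ξ ^ n = 1 := by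
    rw [hξ, mul_pow, hx, one_mul, ← pow_mul, mul_comm, pow_mul, hy, one_pow]
  have hξ1 : ξ - 1 = y ^ (n - 1) * (x - y) := by
    rw [hξ, mul_sub, hy1]
    ring
  have hξmem : ξ - 1 ∈ A.nonunits := by
    rw [hξ1, ValuationSubring.mem_nonunits_iff, map_mul]
    have h1 : A.valuation (y ^ (n - 1)) ≤ 1 := (A.valuation_le_one_iff _).mpr (pow_mem hyA _)
    have h2 : A.valuation (x - y) < 1 := hxy
    calc A.valuation (y ^ (n - 1)) * A.valuation (x - y)
        ≤ 1 * A.valuation (x - y) := mul_le_mul' h1 le_rfl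
      _ < 1 := by rwa [one_mul]
  have h1 : ξ = 1 := eq_one_of_sub_one_mem_nonunits A hA hln hξn hξmem
  have h2 : x * y ^ (n - 1) * y = y := by rw [← hξ, h1, one_mul]
  rwa [mul_assoc, hy1, mul_one] at h2

/-- **Frobenius on roots of unity.** -/
theorem apply_eq_pow_of_isFrobeniusAt (A : ValuationSubring Ω) {l n : ℕ}
    (hA : A.LiesOverPrime l) (hln : Nat.Coprime l n) {σ : Ω ≃ₐ[K] Ω}
    (hσ : A.IsFrobeniusAt σ l) {ζ : Ω} (hζ : ζ ^ n = 1) : σ ζ = ζ ^ l := by
  rcases Nat.eq_zero_or_pos n with rfl | hn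
  · rw [Nat.coprime_zero_right] at hln
    subst hln
    have hA' : ((1 : ℕ) : Ω) ∈ A.nonunits := hA
    rw [Nat.cast_one, ValuationSubring.mem_nonunits_iff, map_one] at hA'
    exact absurd hA' (lt_irrefl _)
  refine eq_of_sub_mem_nonunits A hA hln ?_ ?_
    (apply_sub_pow_mem_nonunits_of_isFrobeniusAt hσ (mem_of_pow_eq_one A hn hζ))
  · rw [← map_pow, hζ, map_one]
  · rw [← pow_mul, mul_comm, pow_mul, hζ, one_pow]

/-- **Inertia on roots of unity.** -/
theorem apply_eq_self_of_mem_inertia (A : ValuationSubring Ω) {l n : ℕ}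
    (hA : A.LiesOverPrime l) (hln : Nat.Coprime l n) {σ : Ω ≃ₐ[K] Ω}
    (hσ : σ ∈ A.inertiaSubgroupIn K) {ζ : Ω} (hζ : ζ ^ n = 1) : σ ζ = ζ := by
  rcases Nat.eq_zero_or_pos n with rfl | hn
  · rw [Nat.coprime_zero_right] at hln
    subst hln
    have hA' : ((1 : ℕ) : Ω) ∈ A.nonunits := hA
    rw [Nat.cast_one, ValuationSubring.mem_nonunits_iff, map_one] at hA'
    exact absurd hA' (lt_irrefl _)
  refine eq_of_sub_mem_nonunits A hA hln ?_ hζ
    (Fermat.Agent.S05.H63.apply_sub_mem_nonunits_of_mem_inertiaSubgroupIn hσ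
      (mem_of_pow_eq_one A hn hζ))
  rw [← map_pow, hζ, map_one]

end Roots

section ComplexConj

local notation "Qb" => AlgebraicClosure ℚ

/-- Complex conjugation inverts every root of unity of `ℚbar`. -/
theorem complexConjugation_apply_root {n : ℕ} (hn : n ≠ 0) {ζ : Qb} (hζ : ζ ^ n = 1) :
    complexConjugation ζ = ζ⁻¹ := by
  apply complexEmbedding.toRingHom.injective
  show complexEmbedding (complexConjugation ζ) = complexEmbedding ζ⁻¹
  rw [complexEmbedding_complexConjugation, map_inv₀]
  set w : ℂ := complexEmbedding ζ with hw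
  have hwn : w ^ n = 1 := by rw [hw, ← map_pow, hζ, map_one]
  have hnorm : ‖w‖ = 1 := Complex.norm_eq_one_of_pow_eq_one hwn hn
  have h2 : w * (starRingEnd ℂ) w = 1 := by
    rw [Complex.mul_conj, Complex.normSq_eq_norm_sq, hnorm]
    simp
  exact eq_inv_of_mul_eq_one_right h2

/-- Complex conjugation sends an `n`-th root of unity `ζ` to `ζ ^ (n - 1)`. -/
theorem complexConjugation_apply_root' {n : ℕ} (hn : n ≠ 0) {ζ : Qb} (hζ : ζ ^ n = 1) :
    complexConjugation ζ = ζ ^ (n - 1) := by
  rw [complexConjugation_apply_root hn hζ]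
  have h1 : ζ * ζ ^ (n - 1) = 1 := by
    rw [← pow_succ', Nat.sub_add_cancel (Nat.pos_of_ne_zero hn)]
    exact hζ
  exact (eq_inv_of_mul_eq_one_right h1).symm

/-- The mod `n` cyclotomic character of complex conjugation is `-1`. -/
theorem modularCyclotomicCharacter_complexConjugation {n : ℕ} [NeZero n]
    (hn : Nat.card (rootsOfUnity n Qb) = n) :
    ((modularCyclotomicCharacter Qb hn (complexConjugation : Qb ≃+* Qb) : (ZMod n)ˣ) : ZMod n)
      = -1 := by
  obtain ⟨z, hz⟩ := card_rootsOfUnity_eq_iff_exists_isPrimitiveRoot.mp hn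
  have h1 : (complexConjugation : Qb ≃+* Qb) z = z ^ (n - 1) :=
    complexConjugation_apply_root' (NeZero.ne n) hz.pow_eq_one
  rw [modularCyclotomicCharacter_eq_of_apply hn _ hz h1,
    Nat.cast_sub (Nat.pos_of_ne_zero (NeZero.ne n)), Nat.cast_one, ZMod.natCast_self, zero_sub]

/-- The `p`-adic cyclotomic character of complex conjugation is `-1`. -/
theorem cyclotomicCharacter_complexConjugation (p : ℕ) [Fact p.Prime]
    [∀ i, HasEnoughRootsOfUnity Qb (p ^ i)] :
    ((cyclotomicCharacter Qb p (complexConjugation : Qb ≃+* Qb) : ℤ_[p]ˣ) : ℤ_[p]) = -1 := by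
  refine PadicInt.ext_of_toZModPow.mp fun n => ?_
  rw [cyclotomicCharacter.toZModPow, map_neg, map_one]
  exact modularCyclotomicCharacter_complexConjugation _

end ComplexConj

end Fermat.Agent.S29.H81
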